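import Fermat.Agent.DefRing.MatrixRep
import Fermat.Prelude.Def_GaloisRep_StrictOrdinary
import Fermat.Prelude.Def_GaloisRep_Flat
import Mathlib.LinearAlgebra.Charpoly.BaseChange

/-!
# The local conditions along a surjection of coefficient rings
-/

noncomputable section

open IsLocalRing Fermat.Agent.DefRing
open scoped TensorProduct

namespace Fermat.Agent.RowS56

variable {A B : Type} [CommRing A] [IsLocalRing A] [CommRing B] [IsLocalRing B] (φ : A →+* B)
  (hφ : IsLocalHom φ) {ρ : GaloisRepAdic A} {p : ℕ}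

lemma mem_maximalIdeal_map {a : A} (hl : IsLocalHom φ) (ha : a ∈ maximalIdeal A) :
    φ a ∈ maximalIdeal B :=
  have := hl
  fun hu => ha (isUnit_of_map_unit φ a hu)

theorem detIsCyclotomic_baseChange (h : ρ.DetIsCyclotomic p) :
    (ρ.baseChangeAlong φ hφ).DetIsCyclotomic p := by
  let : Algebra A B := φ.toAlgebra
  refine ⟨?_, fun n σ a ha => ?_⟩
  · simpa using mem_maximalIdeal_map φ hφ h.1
  obtain ⟨c, hc⟩ := Ideal.mem_span_singleton'.mp (h.2 n σ a ha)
  refine Ideal.mem_span_singleton'.mpr ⟨φ c, ?_⟩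
  show φ c * _ = LinearMap.det ((ρ.ρ σ).baseChange B) - _
  rw [LinearMap.det_baseChange, show algebraMap A B = φ from rfl]
  have := congrArg φ hc
  simpa using this

theorem isUnramifiedAt_baseChange {q : ℕ} (h : ρ.IsUnramifiedAt q) :
    (ρ.baseChangeAlong φ hφ).IsUnramifiedAt q := fun P hP σ hσ => by
  let : Algebra A B := φ.toAlgebra
  show (ρ.ρ σ).baseChange B = 1
  rw [h P hP σ hσ, LinearMap.baseChange_one]

theorem isUnipotentOnInertiaAt_baseChange {q : ℕ} (h : ρ.IsUnipotentOnInertiaAt q) :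
    (ρ.baseChangeAlong φ hφ).IsUnipotentOnInertiaAt q := fun P hP σ hσ => by
  let : Algebra A B := φ.toAlgebra
  show LinearMap.charpoly ((ρ.ρ σ).baseChange B) = _
  rw [LinearMap.charpoly_baseChange, h P hP σ hσ]
  simp

theorem isStrictOrdinaryAt_baseChange (h : ρ.IsStrictOrdinaryAt p) :
    (ρ.baseChangeAlong φ hφ).IsStrictOrdinaryAt p := by
  let : Algebra A B := φ.toAlgebra
  refine ⟨by simpa using mem_maximalIdeal_map φ hφ h.1, fun P hP => ?_⟩
  obtain ⟨L, ⟨b, hb⟩, hD, hI, hstr⟩ := h.2 P hP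
  let b' : Module.Basis (Fin 2) B (B ⊗[A] ρ.V) := Algebra.TensorProduct.basis B b
  let L' : Submodule B (B ⊗[A] ρ.V) := Submodule.span B {b' 0}
  have hb' : b' 0 = (1 : B) ⊗ₜ[A] b 0 := Algebra.TensorProduct.basis_apply b 0
  have hb0 : b 0 ∈ L := hb ▸ Submodule.mem_span_singleton_self _
  have hmemL : ∀ v ∈ L, ∀ c : B, c ⊗ₜ[A] v ∈ L' := fun v hv c => by
    rw [hb] at hv
    obtain ⟨a, rfl⟩ := Submodule.mem_span_singleton.mp hv
    refine Submodule.mem_span_singleton.mpr ⟨c * algebraMap A B a, ?_⟩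
    rw [hb', TensorProduct.smul_tmul', smul_eq_mul, mul_one, TensorProduct.tmul_smul,
      TensorProduct.smul_tmul', Algebra.smul_def, mul_comm]
  have hz : ∀ (z : A) (c : B) (v : ρ.V), φ z • (c ⊗ₜ[A] v) = c ⊗ₜ[A] (z • v) := fun z c v => by
    rw [TensorProduct.tmul_smul, TensorProduct.smul_tmul', TensorProduct.smul_tmul',
      smul_eq_mul, Algebra.smul_def]
    rfl
  have key : (∃ c : Module.Basis (Fin 2) B (B ⊗[A] ρ.V), L' = Submodule.span B {c 0}) ∧
      (∀ σ ∈ P.decompositionSubgroup ℚ, ∀ w ∈ L', (ρ.ρ σ).baseChange B w ∈ L') ∧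
      (∀ σ ∈ P.inertiaSubgroupIn ℚ, ∀ w, (ρ.ρ σ).baseChange B w - w ∈ L') ∧
      (∀ σ ∈ P.decompositionSubgroup ℚ, ∃ x z : B,
        (∀ w ∈ L', (ρ.ρ σ).baseChange B w = x • w) ∧
        (∀ w, (ρ.ρ σ).baseChange B w - z • w ∈ L') ∧
        ∀ (n a : ℕ), (∀ μ : AlgebraicClosure ℚ, μ ^ p ^ n = 1 → σ μ = μ ^ a) →
          x - (a : B) * z ∈ Ideal.span {((p ^ n : ℕ) : B)}) := by
    refine ⟨⟨b', rfl⟩, fun σ hσ w hw => ?_, fun σ hσ w => ?_, fun σ hσ => ?_⟩
    · obtain ⟨c, rfl⟩ := Submodule.mem_span_singleton.mp hw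
      rw [map_smul, hb', LinearMap.baseChange_tmul]
      exact L'.smul_mem c (hmemL _ (hD σ hσ _ hb0) 1)
    · induction w using TensorProduct.induction_on with
      | zero => rw [map_zero, sub_zero]; exact L'.zero_mem
      | tmul c v =>
        rw [LinearMap.baseChange_tmul, ← TensorProduct.tmul_sub]
        exact hmemL _ (hI σ hσ v) c
      | add x y hx hy => rw [map_add, add_sub_add_comm]; exact add_mem hx hy
    · obtain ⟨x, z, h1, h2, h3⟩ := hstr σ hσ
      refine ⟨φ x, φ z, fun w hw => ?_, fun w => ?_, fun n a ha => ?_⟩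
      · obtain ⟨c, rfl⟩ := Submodule.mem_span_singleton.mp hw
        rw [map_smul, smul_comm (φ x) c, hb', LinearMap.baseChange_tmul, h1 _ hb0, hz]
      · induction w using TensorProduct.induction_on with
        | zero => rw [map_zero, smul_zero, sub_zero]; exact L'.zero_mem
        | tmul c v =>
          rw [LinearMap.baseChange_tmul, hz, ← TensorProduct.tmul_sub]
          exact hmemL _ (h2 v) c
        | add x y hx hy => rw [map_add, smul_add, add_sub_add_comm]; exact add_mem hx hy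
      · obtain ⟨c, hc⟩ := Ideal.mem_span_singleton'.mp (h3 n a ha)
        refine Ideal.mem_span_singleton'.mpr ⟨φ c, ?_⟩
        have := congrArg φ hc
        simpa using this
  exact ⟨L', key⟩

theorem isFlatAt_baseChange (hsurj : Function.Surjective φ) (h : ρ.IsFlatAt p) :
    (ρ.baseChangeAlong φ hφ).IsFlatAt p := by
  let : Algebra A B := φ.toAlgebra
  have := hφ
  have := h.1
  refine ⟨Finite.of_surjective (ResidueField.map φ) fun y => ?_, fun J hJ => ?_⟩
  · obtain ⟨b, rfl⟩ := IsLocalRing.residue_surjective y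
    obtain ⟨a, rfl⟩ := hsurj b
    exact ⟨residue A a, ResidueField.map_residue φ a⟩
  set I : Ideal A := J.comap φ with hI
  have : Finite (A ⧸ I) :=
    Finite.of_injective _ (Ideal.quotientMap_injective (f := φ) (I := J))
  obtain ⟨H, iH, iHopf, h1, h2, h3, e, hadd, hgal⟩ := h.2 I inferInstance
  set S : Submodule B (B ⊗[A] ρ.V) := J • ⊤ with hS
  let j : ρ.V →ₗ[A] ((B ⊗[A] ρ.V) ⧸ S) :=
    (S.mkQ.restrictScalars A).comp ((TensorProduct.mk A B ρ.V) 1)
  have hj : ∀ v, j v = Submodule.Quotient.mk ((1 : B) ⊗ₜ[A] v) := fun v => rfl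
  have hsm : ∀ (b : B) (v : ρ.V), ∃ v', b ⊗ₜ[A] v = (1 : B) ⊗ₜ[A] v' := fun b v => by
    obtain ⟨a, rfl⟩ := hsurj b
    refine ⟨a • v, ?_⟩
    rw [TensorProduct.tmul_smul, TensorProduct.smul_tmul', Algebra.smul_def, mul_one]
    rfl
  have hjs : Function.Surjective j := fun y => by
    obtain ⟨w, rfl⟩ := Submodule.Quotient.mk_surjective _ y
    induction w using TensorProduct.induction_on with
    | zero => exact ⟨0, (map_zero j).trans rfl⟩
    | tmul b v =>
      obtain ⟨v', hv'⟩ := hsm b v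
      exact ⟨v', by rw [hj, hv']⟩
    | add x y hx hy =>
      obtain ⟨vx, hx⟩ := hx
      obtain ⟨vy, hy⟩ := hy
      refine ⟨vx + vy, ?_⟩
      rw [map_add, hx, hy]
      rfl
  have hker : LinearMap.ker j = I • (⊤ : Submodule A ρ.V) := by
    refine le_antisymm (fun v hv => ?_) (Submodule.smul_le.mpr fun a ha v _ => ?_)
    · rw [LinearMap.mem_ker, hj, Submodule.Quotient.mk_eq_zero, hS] at hv
      let b := repBasis ρ
      let b' : Module.Basis (Fin 2) B (B ⊗[A] ρ.V) := Algebra.TensorProduct.basis B b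
      have hc : ∀ i, φ (b.repr v i) ∈ J := fun i => by
        have h4 := Submodule.mem_map_of_mem (f := b'.coord i) hv
        rw [Submodule.map_smul''] at h4
        have h5 : b'.coord i ((1 : B) ⊗ₜ[A] v) ∈ J := by
          simpa using Submodule.smul_mono (le_refl J) le_top h4
        rw [Module.Basis.coord_apply, Algebra.TensorProduct.basis_repr_tmul] at h5
        simpa [RingHom.algebraMap_toAlgebra] using h5
      rw [← b.sum_repr v]
      exact Submodule.sum_mem _ fun i _ => Submodule.smul_mem_smul (hc i) Submodule.mem_top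
    · rw [LinearMap.mem_ker, hj, Submodule.Quotient.mk_eq_zero, TensorProduct.tmul_smul,
        TensorProduct.smul_tmul', Algebra.smul_def, mul_one,
        show algebraMap A B a = φ a • (1 : B) by rw [smul_eq_mul, mul_one]; rfl,
        ← TensorProduct.smul_tmul']
      exact Submodule.smul_mem_smul ha Submodule.mem_top
  let ψ : (ρ.V ⧸ (I • (⊤ : Submodule A ρ.V))) ≃ₗ[A] ((B ⊗[A] ρ.V) ⧸ S) :=
    (Submodule.quotEquivOfEq _ _ hker.symm).trans (LinearMap.quotKerEquivOfSurjective j hjs)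
  have hψ : ∀ v, ψ (Submodule.Quotient.mk v) = j v := fun v => rfl
  refine ⟨H, iH, iHopf, h1, h2, h3, e.trans ψ.toEquiv, fun f g => ?_, fun σ f g hfg => ?_⟩
  · show ψ (e (f * g)) = ψ (e f) + ψ (e g)
    rw [hadd, map_add]
  · show ψ (e g) = (ρ.baseChangeAlong φ hφ).levelAction J σ (ψ (e f))
    rw [hgal σ f g hfg]
    obtain ⟨v, hv⟩ := Submodule.Quotient.mk_surjective _ (e f)
    rw [← hv, hψ, hj]
    show ψ (Submodule.Quotient.mk (ρ.ρ σ v)) = _
    rw [hψ, hj]
    show _ = Submodule.Quotient.mk ((ρ.ρ σ).baseChange B ((1 : B) ⊗ₜ[A] v))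
    rw [LinearMap.baseChange_tmul]

variable {𝒪 : Type} [CommRing 𝒪] [Algebra 𝒪 A] [Algebra 𝒪 B] {S Smin : Finset ℕ}

theorem strictMin_baseChange
    (h : GaloisRep.strictOrdinaryCondition 𝒪 p S ρ ∧
      ∀ q ∈ Smin, q.Prime → q ≠ p → ρ.IsUnipotentOnInertiaAt q) :
    GaloisRep.strictOrdinaryCondition 𝒪 p S (ρ.baseChangeAlong φ hφ) ∧
      ∀ q ∈ Smin, q.Prime → q ≠ p → (ρ.baseChangeAlong φ hφ).IsUnipotentOnInertiaAt q :=
  ⟨⟨detIsCyclotomic_baseChange φ hφ h.1.1, isStrictOrdinaryAt_baseChange φ hφ h.1.2.1,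
    fun q hq hqS => isUnramifiedAt_baseChange φ hφ (h.1.2.2 q hq hqS)⟩,
    fun q hq hqp hne => isUnipotentOnInertiaAt_baseChange φ hφ (h.2 q hq hqp hne)⟩

/-- The flat and minimal deformation conditions are stable under surjective base change. -/
theorem flatMin_baseChange (hsurj : Function.Surjective φ)
    (h : GaloisRep.flatCondition 𝒪 p S ρ ∧
      ∀ q ∈ Smin, q.Prime → q ≠ p → ρ.IsUnipotentOnInertiaAt q) :
    GaloisRep.flatCondition 𝒪 p S (ρ.baseChangeAlong φ hφ) ∧
      ∀ q ∈ Smin, q.Prime → q ≠ p → (ρ.baseChangeAlong φ hφ).IsUnipotentOnInertiaAt q :=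
  ⟨⟨detIsCyclotomic_baseChange φ hφ h.1.1, isFlatAt_baseChange φ hφ hsurj h.1.2.1,
    fun q hq hqS => isUnramifiedAt_baseChange φ hφ (h.1.2.2 q hq hqS)⟩,
    fun q hq hqp hne => isUnipotentOnInertiaAt_baseChange φ hφ (h.2 q hq hqp hne)⟩

end Fermat.Agent.RowS56
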