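import Fermat.Agent.DefRing.Burnside
import Fermat.Agent.Deform.Residual
import Fermat.Agent.Deform.TangentBound
import Fermat.Prelude.Def_GaloisRep_DeformationRingData

/-!
# A presentation of a deformation ring from a bound on its tangent cocycles

If the first order deformations of the given type have their cocycles in a space `W` of dimension
at most `r + 3` which contains the coboundaries, the deformation ring is a quotient of the power
series ring in `r` variables.
-/

noncomputable section

open IsLocalRing GaloisRep Fermat.Agent.DefRing Fermat.Agent.GalCoh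
open Fermat.Agent.Deform (cocOf adRep dualMat epsUnit)

namespace Fermat.Agent.RowS56

attribute [local instance 10000] dualAlgebra

/-- The matrices of a residual representation. -/
def residualMat {k : Type} [Field k] (ρbar : ResidualGaloisRep k)
    (b₀ : Module.Basis (Fin 2) k ρbar.V) : MRep k :=
  (LinearMap.toMatrixAlgEquiv b₀).toRingEquiv.toRingHom.toMonoidHom.comp ρbar.ρ

@[simp]
theorem residualMat_apply {k : Type} [Field k] (ρbar : ResidualGaloisRep k)
    (b₀ : Module.Basis (Fin 2) k ρbar.V) (σ : GQ) :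
    residualMat ρbar b₀ σ = LinearMap.toMatrix b₀ b₀ (ρbar.ρ σ) := rfl

/-- A ring with a nilpotent maximal ideal is complete. -/
theorem isAdicComplete_of_pow_eq_bot {R : Type} [CommRing R] (I : Ideal R) {m : ℕ}
    (h : I ^ m = ⊥) : IsAdicComplete I R where
  haus' := fun x hx => by
    have := hx m
    rwa [SModEq.zero, h, Submodule.bot_smul, Submodule.mem_bot] at this
  prec' := fun f hf => by
    refine ⟨f m, fun n => ?_⟩
    rcases le_total n m with hle | hle
    · exact hf hle
    · have := hf hle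
      rw [h, Submodule.bot_smul, SModEq.bot] at this
      rw [this]

/-- A basis in which a representation has prescribed matrices. -/
theorem exists_basis_of_isEquiv {A : Type} [CommRing A] [IsLocalRing A] {ρ : GaloisRepAdic A}
    {N : MRep A} {hc : IsCont N} (h : ρ.IsEquiv (toAdic N hc)) :
    ∃ b : Module.Basis (Fin 2) A ρ.V, matrixRep ρ b = N := by
  obtain ⟨e⟩ := h
  refine ⟨(toAdicBasis N hc).map e.toLinearEquiv.symm, ?_⟩
  refine MonoidHom.ext fun σ => Matrix.ext fun i j => ?_
  refine Eq.trans ?_ (congrFun (congrFun (DFunLike.congr_fun (matrixRep_toAdic N hc) σ) i) j)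
  simp [LinearMap.toMatrix_apply, e.map_apply, -matrixRep_toAdic]

variable {𝒪 : Type} [CommRing 𝒪] [IsLocalRing 𝒪]

local notation "k" => IsLocalRing.ResidueField 𝒪

section Derivations

variable {R : Type} [CommRing R] [Algebra 𝒪 R] (π : R →ₐ[𝒪] IsLocalRing.ResidueField 𝒪)

/-- Derivations into the residue field at `π`, trivial on the base. -/
def derivSpace : Submodule (IsLocalRing.ResidueField 𝒪) (R → IsLocalRing.ResidueField 𝒪) where
  carrier := {lam | (∀ a b, lam (a + b) = lam a + lam b) ∧
    (∀ a b, lam (a * b) = π a * lam b + π b * lam a) ∧ ∀ o, lam (algebraMap 𝒪 R o) = 0}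
  zero_mem' := ⟨fun a b => by simp, fun a b => by simp, fun o => rfl⟩
  add_mem' := by
    rintro x y ⟨x1, x2, x3⟩ ⟨y1, y2, y3⟩
    refine ⟨fun a b => ?_, fun a b => ?_, fun o => ?_⟩ <;>
      simp only [Pi.add_apply, x1, y1, x2, y2, x3, y3] <;> ring
  smul_mem' := by
    rintro t x ⟨x1, x2, x3⟩
    refine ⟨fun a b => ?_, fun a b => ?_, fun o => ?_⟩ <;>
      simp only [Pi.smul_apply, smul_eq_mul, x1, x2, x3] <;> ring

variable {π}

/-- The dual number point of a derivation. -/
def derivPoint {lam : R → k} (h : lam ∈ derivSpace π) : R →ₐ[𝒪] DualNumber k where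
  toFun a := TrivSqZeroExt.inl (π a) + TrivSqZeroExt.inr (lam a)
  map_one' := by
    have := h.2.2 1
    rw [map_one] at this
    ext <;> simp [this]
  map_zero' := by
    have := h.2.2 0
    rw [map_zero] at this
    ext <;> simp [this]
  map_add' a b := by ext <;> simp [h.1 a b]
  map_mul' a b := by
    ext
    · simp
    · simp [h.2.1 a b, mul_comm]
  commutes' o := by
    rw [dual_algebraMap]
    ext
    · simp [AlgHom.commutes]
    · simp [h.2.2 o]

theorem fst_derivPoint {lam : R → k} (h : lam ∈ derivSpace π) (a : R) :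
    (derivPoint h a).fst = π a := by simp [derivPoint]

theorem snd_derivPoint {lam : R → k} (h : lam ∈ derivSpace π) (a : R) :
    (derivPoint h a).snd = lam a := by simp [derivPoint]

theorem derivPoint_surjective (hπ : Function.Surjective π) {lam : R → k}
    (h : lam ∈ derivSpace π) (h0 : lam ≠ 0) : Function.Surjective (derivPoint h) := fun x => by
  obtain ⟨a, ha⟩ := Function.ne_iff.mp h0
  obtain ⟨o, ho⟩ := IsLocalRing.residue_surjective (R := 𝒪) (π a)
  have hπo : ∀ o, π (algebraMap 𝒪 R o) = residue 𝒪 o := fun o => AlgHom.commutes π o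
  set y := a - algebraMap 𝒪 R o with hy
  have hy1 : π y = 0 := by rw [hy, map_sub, hπo, ho, sub_self]
  have hy2 : lam y = lam a := by
    have := h.1 y (algebraMap 𝒪 R o)
    rw [hy, sub_add_cancel, h.2.2, add_zero] at this
    exact this.symm
  obtain ⟨b, hb⟩ := hπ (x.snd / lam a)
  obtain ⟨c, hc⟩ := IsLocalRing.residue_surjective (R := 𝒪) x.fst
  refine ⟨algebraMap 𝒪 R c + b * y, TrivSqZeroExt.ext ?_ ?_⟩
  · rw [fst_derivPoint, map_add, map_mul, hy1, mul_zero, add_zero, hπo, hc]
  · rw [snd_derivPoint, h.1, h.2.2, h.2.1, hy1, zero_mul, add_zero, zero_add, hb, hy2]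
    exact div_mul_cancel₀ _ ha

end Derivations

/-- The coboundaries of an absolutely irreducible representation have dimension at least three. -/
theorem three_le_finrank_B1 {K : Type} [Field K] (ρ : MRep K)
    (hspan : Submodule.span K (Set.range ρ) = ⊤) :
    3 ≤ Module.finrank K (B1 (adRep ρ)) := by
  have h := (d0 (adRep ρ)).finrank_range_add_finrank_ker
  have h4 : Module.finrank K (Matrix (Fin 2) (Fin 2) K) = 4 := by
    rw [Module.finrank_matrix]; simp
  have hle : LinearMap.ker (d0 (adRep ρ)) ≤ K ∙ (1 : Matrix (Fin 2) (Fin 2) K) := by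
    intro X hX
    have hc : ∀ M : Matrix (Fin 2) (Fin 2) K, M * X = X * M := by
      intro M
      have hM : M ∈ Submodule.span K (Set.range ρ) := hspan ▸ Submodule.mem_top
      induction hM using Submodule.span_induction with
      | mem x hx =>
        obtain ⟨g, rfl⟩ := hx
        have h1 := congrFun (LinearMap.mem_ker.mp hX) g
        rw [d0_apply, Deform.adRep_apply, Pi.zero_apply, sub_eq_zero] at h1
        conv_rhs => rw [← h1, mul_assoc, Deform.rho_inv_mul, mul_one]
      | zero => simp
      | add x y _ _ hx hy => rw [add_mul, mul_add, hx, hy]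
      | smul t x _ hx => rw [Matrix.smul_mul, Matrix.mul_smul, hx]
    refine Submodule.mem_span_singleton.mpr ⟨X 0 0, ?_⟩
    have e1 := congrFun (congrFun (hc (Matrix.single 0 1 1)) 0) 1
    have e2 := congrFun (congrFun (hc (Matrix.single 0 1 1)) 0) 0
    have e3 := congrFun (congrFun (hc (Matrix.single 1 0 1)) 0) 0
    simp [Matrix.mul_apply, Matrix.single] at e1 e2 e3
    ext i j
    fin_cases i <;> fin_cases j <;> simp [e1, e2, ← e3]
  have h1 := Submodule.finrank_mono hle
  rw [finrank_span_singleton (one_ne_zero)] at h1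
  rw [h4] at h
  show 3 ≤ Module.finrank K (LinearMap.range (d0 (adRep ρ)))
  omega

variable [IsDomain 𝒪] [IsDiscreteValuationRing 𝒪] [IsAdicComplete (maximalIdeal 𝒪) 𝒪]

/-- A matrix form of the universal representation reducing to the residual matrices. -/
theorem exists_matrixForm {ρbar : ResidualGaloisRep (ResidueField 𝒪)}
    {𝒟 : ∀ ⦃A : Type⦄ [CommRing A] [IsLocalRing A] [Algebra 𝒪 A], GaloisRepAdic A → Prop}
    (DQ : DeformationRingData 𝒪 ρbar 𝒟)
    (b₀ : Module.Basis (Fin 2) (ResidueField 𝒪) ρbar.V) :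
    ∃ (N : MRep DQ.R) (hc : IsCont N), DQ.ρ.IsEquiv (toAdic N hc) ∧
      ∀ σ, (N σ).map (toResidue DQ.instIsLocalHom DQ.residue_surjective) =
        residualMat ρbar b₀ σ := by
  set ρm := residualMat ρbar b₀ with hρm
  have hl : IsLocalHom (algebraMap 𝒪 DQ.R) := DQ.instIsLocalHom
  have hs := DQ.residue_surjective
  set π := toResidue hl hs with hπdef
  obtain ⟨g, hg⟩ := (residual_isEquiv_baseChangeAlong_iff DQ.ρ (repBasis DQ.ρ) ρbar b₀ _).mp
    DQ.residual_isEquiv
  set M := matrixRep DQ.ρ (repBasis DQ.ρ) with hM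
  let G₀ : Matrix (Fin 2) (Fin 2) DQ.R :=
    (g : Matrix (Fin 2) (Fin 2) (ResidueField DQ.R)).map
      (algebraMap 𝒪 DQ.R ∘ Function.surjInv hs)
  have hG₀ : G₀.map (residue DQ.R) = (g : Matrix (Fin 2) (Fin 2) (ResidueField DQ.R)) :=
    Matrix.ext fun i j => Function.surjInv_eq hs _
  have hGu : IsUnit G₀ := by
    rw [Matrix.isUnit_iff_isUnit_det]
    refine (isUnit_map_iff (residue DQ.R) _).mp ?_
    rw [RingHom.map_det, RingHom.mapMatrix_apply, hG₀]
    exact (Matrix.isUnit_iff_isUnit_det _).mp g.isUnit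
  obtain ⟨G, hG⟩ := hGu
  let N : MRep DQ.R :=
    { toFun := fun σ => (G : Matrix (Fin 2) (Fin 2) DQ.R) * M σ *
        (↑G⁻¹ : Matrix (Fin 2) (Fin 2) DQ.R)
      map_one' := by simp
      map_mul' := fun σ τ => by simp [mul_assoc] }
  have hGN : ∀ σ, (G : Matrix (Fin 2) (Fin 2) DQ.R) * M σ = N σ * G := fun σ => by
    simp [N, mul_assoc]
  have hc : IsCont N := Deform.isCont_conj (isCont_matrixRep _ _) G hGN
  have hequiv : DQ.ρ.IsEquiv (toAdic N hc) := by
    rw [isEquiv_iff_exists_GL (repBasis DQ.ρ) (toAdicBasis N hc), matrixRep_toAdic]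
    exact ⟨G, hGN⟩
  have hNπ : ∀ σ, (N σ).map π = ρm σ := by
    intro σ
    refine Matrix.map_injective (ResidueField.map (algebraMap 𝒪 DQ.R)).injective ?_
    show ((N σ).map π).map (ResidueField.map (algebraMap 𝒪 DQ.R)) =
      (ρm σ).map (ResidueField.map (algebraMap 𝒪 DQ.R))
    have e1 : ((N σ).map π).map (ResidueField.map (algebraMap 𝒪 DQ.R)) =
        (N σ).map (residue DQ.R) := Matrix.ext fun i j => residueField_map_toResidue hs _
    have e2 : (N σ).map (residue DQ.R) * (g : Matrix (Fin 2) (Fin 2) (ResidueField DQ.R)) =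
        (g : Matrix (Fin 2) (Fin 2) (ResidueField DQ.R)) * (M σ).map (residue DQ.R) := by
      rw [← hG₀, ← hG, ← Matrix.map_mul, ← Matrix.map_mul, hGN]
    rw [hg σ] at e2
    rw [e1, ← (g.mul_left_inj).1 (e2.symm)]
    rfl
  exact ⟨N, hc, hequiv, hNπ⟩

/-- **A presentation from a bound on the tangent cocycles.** -/
theorem exists_surjective_of_cocycle_bound [Finite (ResidueField 𝒪)]
    {ρbar : ResidualGaloisRep (ResidueField 𝒪)}
    (b₀ : Module.Basis (Fin 2) (ResidueField 𝒪) ρbar.V)
    {𝒟 : ∀ ⦃A : Type⦄ [CommRing A] [IsLocalRing A] [Algebra 𝒪 A], GaloisRepAdic A → Prop}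
    (DQ : DeformationRingData 𝒪 ρbar 𝒟)
    (h𝒟bc : ∀ (φ : DQ.R →ₐ[𝒪] DualNumber k) (hφ : IsLocalHom (φ : DQ.R →+* DualNumber k)),
      Function.Surjective φ → 𝒟 (DQ.ρ.baseChangeAlong (φ : DQ.R →+* DualNumber k) hφ))
    (W : Submodule k (GQ → Matrix (Fin 2) (Fin 2) k)) [FiniteDimensional k W] {r : ℕ}
    (hr : Module.finrank k W ≤ r + 3) (hB : B1 (adRep (residualMat ρbar b₀)) ≤ W)
    (hW : ∀ (ρ' : GaloisRepAdic (DualNumber k)) (b' : Module.Basis (Fin 2) (DualNumber k) ρ'.V),
      𝒟 ρ' → (∀ σ, (matrixRep ρ' b' σ).map TrivSqZeroExt.fst = residualMat ρbar b₀ σ) →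
      cocOf (residualMat ρbar b₀) (matrixRep ρ' b') ∈ W) :
    ∃ γ : MvPowerSeries (Fin r) 𝒪 →ₐ[𝒪] DQ.R, Function.Surjective γ := by
  set ρm := residualMat ρbar b₀ with hρm
  have hl : IsLocalHom (algebraMap 𝒪 DQ.R) := DQ.instIsLocalHom
  have hs := DQ.residue_surjective
  set π := toResidue hl hs with hπdef
  have hπs : Function.Surjective π := fun z => by
    obtain ⟨o, rfl⟩ := IsLocalRing.residue_surjective z
    exact ⟨algebraMap 𝒪 DQ.R o, AlgHom.commutes π o⟩
  obtain ⟨N, hc, hequiv, hNπ⟩ := exists_matrixForm DQ b₀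
  rw [← hρm, ← hπdef] at hNπ
  -- the points and their cocycles
  have : Finite (DualNumber k) := inferInstanceAs (Finite (k × k))
  have hT := isArtinianTestAlgebra_dual (𝒪 := 𝒪)
  have := hT.isArtinian
  have := hT.isLocalHom
  obtain ⟨m, hm⟩ := isNilpotent_maximalIdeal_of_isArtinianRing (A := DualNumber k)
  have : IsAdicComplete (maximalIdeal (DualNumber k)) (DualNumber k) :=
    isAdicComplete_of_pow_eq_bot _ (hm.trans Ideal.zero_eq_bot)
  have hπeq : ∀ (φ : DQ.R →ₐ[𝒪] DualNumber k) a, (φ a).fst = π a := fun φ a => by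
    have := Deform.isLocalHom_toDual φ
    obtain ⟨o, ho⟩ := exists_algebraMap_add_mem hs a
    have h1 : π (a - algebraMap 𝒪 DQ.R o) = 0 := (toResidue_eq_zero_iff hl hs).mpr ho
    have h2 : (φ (a - algebraMap 𝒪 DQ.R o)).fst = 0 := by
      by_contra hne
      exact ho (isUnit_of_map_unit (φ : DQ.R →+* DualNumber k) _
        (TrivSqZeroExt.isUnit_iff_isUnit_fst.mpr (isUnit_iff_ne_zero.mpr hne)))
    rw [map_sub, sub_eq_zero, AlgHom.commutes] at h1
    rw [map_sub, AlgHom.commutes, TrivSqZeroExt.fst_sub, sub_eq_zero, dual_algebraMap,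
      TrivSqZeroExt.fst_inl] at h2
    exact h2.trans h1.symm
  set Λ := derivSpace π with hΛ
  let coc : (DQ.R → k) →ₗ[k] (GQ → Matrix (Fin 2) (Fin 2) k) :=
    { toFun := fun lam σ => (N σ).map lam * ρm σ⁻¹
      map_add' := fun x y => funext fun σ => by
        show (N σ).map (x + y) * _ = (N σ).map x * _ + (N σ).map y * _
        rw [← add_mul]; rfl
      map_smul' := fun t x => funext fun σ => by
        show (N σ).map (t • x) * _ = t • ((N σ).map x * _)
        rw [← Matrix.smul_mul]; rfl }
  have hcoc : ∀ lam (h : lam ∈ Λ), coc lam =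
      cocOf ρm (mapRep (derivPoint h : DQ.R →+* DualNumber k) N) := fun lam h => funext fun σ => by
    show (N σ).map lam * _ = _
    rw [cocOf, mapRep_apply, Matrix.map_map]
    congr 2
    exact funext fun a => (snd_derivPoint h a).symm
  have hfst : ∀ lam (h : lam ∈ Λ) σ,
      (mapRep (derivPoint h : DQ.R →+* DualNumber k) N σ).map TrivSqZeroExt.fst = ρm σ := by
    intro lam h σ
    rw [← hNπ σ, mapRep_apply, Matrix.map_map]
    congr 1
    exact funext fun a => fst_derivPoint h a
  have hbc : ∀ lam (h : lam ∈ Λ),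
      (DQ.ρ.baseChangeAlong (derivPoint h : DQ.R →+* DualNumber k)
        (Deform.isLocalHom_toDual _)).IsEquiv
      (toAdic (mapRep (derivPoint h : DQ.R →+* DualNumber k) N)
        (hc.map _ (Deform.isLocalHom_toDual _))) := fun lam h =>
    baseChangeAlong_isEquiv_of_isEquiv_toAdic hc hequiv _ _
  have hmem : ∀ lam (h : lam ∈ Λ), coc lam ∈ W := by
    intro lam h
    by_cases h0 : lam = 0
    · rw [h0, map_zero]; exact W.zero_mem
    obtain ⟨b', hb'⟩ := exists_basis_of_isEquiv (hbc lam h)
    rw [hcoc lam h, ← hb']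
    exact hW _ b' (h𝒟bc _ _ (derivPoint_surjective hπs h h0)) fun σ => hb' ▸ hfst lam h σ
  -- a point with a coboundary is trivial
  have hinj : ∀ lam (h : lam ∈ Λ), coc lam ∈ B1 (adRep ρm) → lam = 0 := by
    intro lam h hb
    by_contra h0
    obtain ⟨X, hX⟩ := hb
    set D := derivPoint h with hD
    set D0 := derivPoint (π := π) (Submodule.zero_mem Λ) with hD0
    have h00 : coc 0 = 0 := map_zero coc
    have hconj : ∀ σ, (epsUnit X : Matrix (Fin 2) (Fin 2) (DualNumber k)) *
        mapRep (D : DQ.R →+* DualNumber k) N σ =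
          mapRep (D0 : DQ.R →+* DualNumber k) N σ * epsUnit X := by
      intro σ
      have e1 := Deform.snd_eq_cocOf_mul (ρ := ρm)
        (N := mapRep (D : DQ.R →+* DualNumber k) N) σ
      have e2 := Deform.snd_eq_cocOf_mul (ρ := ρm)
        (N := mapRep (D0 : DQ.R →+* DualNumber k) N) σ
      rw [← hcoc lam h, ← hX, d0_apply, Deform.adRep_apply] at e1
      rw [← hcoc 0 (Submodule.zero_mem Λ), h00, Pi.zero_apply, zero_mul] at e2
      have f1 := hfst lam h σ
      have f2 := hfst 0 (Submodule.zero_mem Λ) σ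
      rw [← hD] at f1
      rw [← hD0] at f2
      refine Deform.ext_fst_snd ?_ ?_
      · simp only [Deform.fst_map_mul, epsUnit, Deform.fst_dualMat, f1, f2, one_mul, mul_one]
      · simp only [Deform.snd_map_mul, epsUnit, Deform.fst_dualMat, Deform.snd_dualMat, e1, e2,
          f1, f2, one_mul, mul_one, add_zero]
        rw [sub_mul, mul_assoc (ρm σ * X), Deform.rho_inv_mul, mul_one]
        abel
    have hρA := h𝒟bc D (Deform.isLocalHom_toDual _) (derivPoint_surjective hπs h h0)
    have hres : (DQ.ρ.baseChangeAlong (D : DQ.R →+* DualNumber k)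
        (Deform.isLocalHom_toDual _)).residual.IsEquiv
        (ρbar.baseChangeAlong (ResidueField.map (algebraMap 𝒪 (DualNumber k)))) := by
      obtain ⟨b', hb'⟩ := exists_basis_of_isEquiv (hbc lam h)
      rw [residual_isEquiv_baseChangeAlong_iff _ b' ρbar b₀]
      refine ⟨1, fun σ => ?_⟩
      rw [Units.val_one, one_mul, mul_one, hb', mapRep_apply, Matrix.map_map,
        ← residualMat_apply, ← hρm, ← hNπ σ, Matrix.map_map]
      congr 1
      funext a
      show residue (DualNumber k) (D a) = _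
      rw [← residueField_map_toResidue hT.residue_surjective (D a)]
      congr 1
      show _ = π a
      rw [← hπeq D a]
      refine (DFunLike.congr_fun (algHom_residueField_unique hT.isLocalHom hT.residue_surjective
        ({ TrivSqZeroExt.fstHom k k k with commutes' := fun o => rfl } :
          DualNumber k →ₐ[𝒪] k) fun x hx => ?_) (D a)).symm
      by_contra hne
      exact hx ((TrivSqZeroExt.isUnit_iff_isUnit_fst).mpr (isUnit_iff_ne_zero.mpr hne))
    have heq : D = D0 := by
      obtain ⟨φ, -, huniq⟩ := DQ.universal (DualNumber k) hT.residue_surjective _ hρA hres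
      rw [huniq D ⟨Deform.isLocalHom_toDual _, ⟨GaloisRepAdic.Equiv.refl _⟩⟩,
        huniq D0 ⟨Deform.isLocalHom_toDual _, isEquiv_trans (hbc 0 (Submodule.zero_mem Λ))
          (isEquiv_trans (isEquiv_symm ((toAdic_isEquiv_toAdic_iff _ _).mpr
            ⟨epsUnit X, hconj⟩)) (isEquiv_symm (hbc lam h)))⟩]
    refine h0 (funext fun a => ?_)
    rw [← snd_derivPoint h a, ← hD, heq, hD0, snd_derivPoint]
  -- the dimension of the space of derivations
  let Ψ : Λ →ₗ[k] W ⧸ (B1 (adRep ρm)).comap W.subtype :=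
    ((B1 (adRep ρm)).comap W.subtype).mkQ.comp
      ((coc.domRestrict Λ).codRestrict W fun lam => hmem lam lam.2)
  have hΨ : Function.Injective Ψ := by
    refine (injective_iff_map_eq_zero Ψ).mpr fun lam hlam => Subtype.ext ?_
    exact hinj lam lam.2 ((Submodule.Quotient.mk_eq_zero _).mp hlam :)
  have : FiniteDimensional k Λ := Module.Finite.of_injective Ψ hΨ
  have hdim : Module.finrank k Λ ≤ r := by
    have h1 := LinearMap.finrank_le_finrank_of_injective hΨ
    have h2 := Submodule.finrank_quotient_add_finrank ((B1 (adRep ρm)).comap W.subtype)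
    have h3 : Module.finrank k ((B1 (adRep ρm)).comap W.subtype) =
        Module.finrank k (B1 (adRep ρm)) :=
      (Submodule.comapSubtypeEquivOfLe hB).finrank_eq
    have h4 := three_le_finrank_B1 ρm
      (span_range_eq_top_of_isAbsolutelyIrreducible ρbar DQ.absIrr b₀)
    omega
  have : IsLocalHom (algebraMap 𝒪 𝒪) := ⟨fun _ h => h⟩
  obtain ⟨γ, -, hγ⟩ := Deform.exists_surjective_powerSeries (𝒪 := 𝒪) (B := 𝒪) hs (id : DQ.R → DQ.R)
    (fun a => ⟨a, Algebra.subset_adjoin ⟨a, rfl⟩, by simp⟩) Λ hdim (fun φ _ => by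
      refine ⟨fun a b => ?_, fun a b => ?_, fun o => ?_⟩
      · simp
      · show (φ (a * b)).snd = π a * (φ b).snd + π b * (φ a).snd
        rw [map_mul, DualNumber.snd_mul, hπeq, hπeq]
        ring
      · show (φ (algebraMap 𝒪 DQ.R o)).snd = 0
        rw [AlgHom.commutes, dual_algebraMap, TrivSqZeroExt.snd_inl])
  exact ⟨γ, hγ⟩

end Fermat.Agent.RowS56
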