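import Fermat.Agent.RowS56.Deform.AtP
import Fermat.Agent.RowS56.Deform.Tangent
import Fermat.Agent.RowS56.Deform.BaseChange
import Fermat.Agent.RowS56.Vanishing.Image
import Fermat.Agent.Engine.TW.Main
import Fermat.Agent.GalCoh.GW.Final
import Fermat.Agent.CFT.Brauer.Reciprocity

/-!
# Taylor–Wiles primes and a presentation of the deformation rings
-/

noncomputable section

open Polynomial IsLocalRing GaloisRep
open Fermat.Agent.DefRing Fermat.Agent.Engine
open Fermat.Agent.Deform (cocOf adRep)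

namespace Fermat.Agent.RowS56

attribute [local instance 10000] dualAlgebra

section Cocycles

variable {k : Type} [Field k] {p : ℕ}

/-- Cocycles satisfying all the local conditions. -/
def selCocycles (ρ : MRep k) (Smin Sigma : Finset ℕ) (atP : CondAtP ρ p) :
    Submodule k (GQ → Matrix (Fin 2) (Fin 2) k) where
  carrier := {c | IsAdCocycle ρ c ∧
    (∀ q : ℕ, q.Prime → q ∉ Sigma → ∀ A : ValuationSubring (AlgebraicClosure ℚ),
      A.LiesOverPrime q → ∀ σ ∈ A.inertiaSubgroupIn ℚ, c σ = 0) ∧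
    (∀ q ∈ Smin, ∀ A : ValuationSubring (AlgebraicClosure ℚ), A.LiesOverPrime q →
      ∀ σ ∈ A.inertiaSubgroupIn ℚ, c σ * ρ σ * (ρ σ - 1) + (ρ σ - 1) * (c σ * ρ σ) = 0) ∧
    (fun g : atP.place.decompositionSubgroup ℚ => c g) ∈ atP.cond}
  zero_mem' := ⟨⟨fun g h => by simp, fun g => by simp, ⊥, inferInstance, fun _ _ => rfl⟩,
    fun _ _ _ _ _ _ _ => rfl, fun q _ A _ σ _ => by simp, atP.cond.zero_mem⟩
  add_mem' := by
    rintro a b ⟨⟨a1, a2, F, hF, a3⟩, a4, a5, a6⟩ ⟨⟨b1, b2, F', hF', b3⟩, b4, b5, b6⟩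
    refine ⟨⟨fun g h => ?_, fun g => by simp [a2, b2],
      F ⊔ F', IntermediateField.finiteDimensional_sup F F', fun g hg => ?_⟩,
      fun q h1 h2 A h3 g hg => ?_, fun q h1 A h2 g hg => ?_, atP.cond.add_mem a6 b6⟩
    · simp only [Pi.add_apply, a1, b1, Matrix.mul_add, Matrix.add_mul]; abel
    · simp [a3 g fun x h => hg x ((le_sup_left : F ≤ F ⊔ F') h),
        b3 g fun x h => hg x ((le_sup_right : F' ≤ F ⊔ F') h)]
    · simp [a4 q h1 h2 A h3 g hg, b4 q h1 h2 A h3 g hg]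
    · have ha := a5 q h1 A h2 g hg
      have hb := b5 q h1 A h2 g hg
      have e : ∀ X Y U V : Matrix (Fin 2) (Fin 2) k,
          (X + Y) * U * V + V * ((X + Y) * U) =
            (X * U * V + V * (X * U)) + (Y * U * V + V * (Y * U)) := fun X Y U V => by
        simp only [Matrix.add_mul, Matrix.mul_add]; abel
      simp only [Pi.add_apply, e, ha, hb, add_zero]
  smul_mem' := by
    rintro t a ⟨⟨a1, a2, F, hF, a3⟩, a4, a5, a6⟩
    refine ⟨⟨fun g h => ?_, fun g => by simp [a2], F, hF, fun g hg => by simp [a3 g hg]⟩,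
      fun q h1 h2 A h3 g hg => by simp [a4 q h1 h2 A h3 g hg],
      fun q h1 A h2 g hg => ?_, atP.cond.smul_mem t a6⟩
    · simp [a1, smul_add]
    · simp only [Pi.smul_apply, Matrix.smul_mul, Matrix.mul_smul, ← smul_add,
        a5 q h1 A h2 g hg, smul_zero]

/-- The bound on pairs without frames is a bound on cocycles. -/
theorem finrank_selCocycles_le {ρ : MRep k} {Smin Q : Finset ℕ} {atP : CondAtP ρ p} {r : ℕ}
    (C : LocalChoices (∅ : Finset ℕ))
    (h : ∀ W : Submodule k (TangentPair k (∅ : Finset ℕ)),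
      (∀ x ∈ W, IsTangentPair ρ Smin (Smin ∪ ∅ ∪ Q ∪ {p}) ∅ C atP x) →
      FiniteDimensional k W ∧ Module.finrank k W ≤ r + (∅ : Finset ℕ).card + 3) :
    FiniteDimensional k (selCocycles ρ Smin (Smin ∪ ∅ ∪ Q ∪ {p}) atP) ∧
      Module.finrank k (selCocycles ρ Smin (Smin ∪ ∅ ∪ Q ∪ {p}) atP) ≤ r + 3 := by
  set Z := selCocycles ρ Smin (Smin ∪ ∅ ∪ Q ∪ {p}) atP
  obtain ⟨hfin, hle⟩ := h (Z.comap (LinearMap.fst k _ _)) fun x hx =>
    ⟨hx.1, hx.2.1, hx.2.2.1, hx.2.2.2, fun r => absurd r.2 (Finset.notMem_empty _)⟩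
  let f : Z →ₗ[k] Z.comap (LinearMap.fst k (GQ → Matrix (Fin 2) (Fin 2) k)
      ((∅ : Finset ℕ) → Matrix (Fin 2) (Fin 2) k)) :=
    LinearMap.codRestrict _ ((LinearMap.inl k _ _).comp Z.subtype) fun c => c.2
  have hf : Function.Injective f := fun c c' e =>
    Subtype.ext (congrArg (fun x => x.1.1) e)
  refine ⟨Module.Finite.of_injective f hf,
    (LinearMap.finrank_le_finrank_of_injective hf).trans ?_⟩
  simpa using hle

/-- Coboundaries satisfy all the conditions. -/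
theorem coboundary_mem_selCocycles {ρ : MRep k} {Smin Sigma : Finset ℕ} {atP : CondAtP ρ p}
    (h2 : (2 : k) ≠ 0) (hfin : GaloisFactorsThroughFiniteLevel (ρ : GQ →* _))
    (hunr : ∀ q : ℕ, q.Prime → q ∉ Sigma → ∀ A : ValuationSubring (AlgebraicClosure ℚ),
      A.LiesOverPrime q → ∀ σ ∈ A.inertiaSubgroupIn ℚ, ρ σ = 1)
    (hmin : ∀ q ∈ Smin, ∀ A : ValuationSubring (AlgebraicClosure ℚ), A.LiesOverPrime q →
      ∀ σ ∈ A.inertiaSubgroupIn ℚ, (ρ σ - 1) * (ρ σ - 1) = 0) :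
    GalCoh.B1 (adRep ρ) ≤ selCocycles ρ Smin Sigma atP := by
  rintro _ ⟨X, rfl⟩
  have hinv : ∀ g, ρ g * ρ g⁻¹ = 1 := Deform.rho_mul_inv ρ
  have hinv' : ∀ g, ρ g⁻¹ * ρ g = 1 := Deform.rho_inv_mul ρ
  have e : ∀ g, GalCoh.d0 (adRep ρ) X g = ρ g * X * ρ g⁻¹ - X := fun g => by
    rw [GalCoh.d0_apply, Deform.adRep_apply]
  have h1 : ∀ g, ρ g = 1 → ρ g * X * ρ g⁻¹ - X = 0 := fun g hg => by
    have := hinv g
    rw [hg, one_mul] at this
    rw [hg, this, one_mul, mul_one, sub_self]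
  refine ⟨⟨fun g h => ?_, fun g => ?_, ?_⟩, fun q hq hqS A hA σ hσ => ?_,
    fun q hq A hA σ hσ => ?_, ?_⟩
  · simp only [e, map_mul, mul_inv_rev, Matrix.mul_sub, Matrix.sub_mul, mul_assoc]; abel
  · rw [e, Matrix.trace_sub, Matrix.trace_mul_cycle, hinv', one_mul, sub_self]
  · obtain ⟨L, hL, hL1⟩ := hfin
    exact ⟨L, hL, fun σ hσ => by rw [e]; exact h1 σ (hL1 σ hσ)⟩
  · rw [e]; exact h1 σ (hunr q hq hqS A hA σ hσ)
  · have hm := hmin q hq A hA σ hσ
    rw [e, sub_mul (ρ σ * X * ρ σ⁻¹), mul_assoc (ρ σ * X), hinv', mul_one]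
    generalize ρ σ = R at hm ⊢
    calc (R * X - X * R) * (R - 1) + (R - 1) * (R * X - X * R)
        = (R - 1) * (R - 1) * X - X * ((R - 1) * (R - 1)) := by noncomm_ring
      _ = 0 := by rw [hm, zero_mul, mul_zero, sub_zero]
  · set t : k := X.trace / 2 with ht
    have hX' : (X - t • (1 : Matrix (Fin 2) (Fin 2) k)).trace = 0 := by
      rw [Matrix.trace_sub, Matrix.trace_smul, Matrix.trace_one, Fintype.card_fin, Nat.cast_ofNat,
        smul_eq_mul, ht, div_mul_cancel₀ _ h2, sub_self]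
    have := atP.coboundary _ hX'
    convert this using 1
    funext g
    rw [e]
    simp only [Matrix.mul_sub, Matrix.sub_mul, Matrix.mul_smul, Matrix.smul_mul, mul_one, hinv]
    abel

end Cocycles

section Residual

variable {k : Type} [Field k] (ρbar : ResidualGaloisRep k) (b₀ : Module.Basis (Fin 2) k ρbar.V)

theorem residualMat_eq_one_iff (σ : GQ) : residualMat ρbar b₀ σ = 1 ↔ ρbar.ρ σ = 1 := by
  rw [residualMat_apply, ← LinearMap.toMatrix_one b₀, EmbeddingLike.apply_eq_iff_eq]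

theorem finite_level_residualMat :
    GaloisFactorsThroughFiniteLevel (residualMat ρbar b₀ : GQ →* _) :=
  ρbar.factorsThroughFiniteLevel.imp fun _ h =>
    ⟨h.1, fun σ hσ => (residualMat_eq_one_iff ρbar b₀ σ).mpr (h.2 σ hσ)⟩

/-- Irreducibility on subgroups of index at most two, in matrices. -/
theorem indexTwoIrreducible_residualMat (habs : ρbar.IsAbsolutelyIrreducible)
    (hTW : ∀ (K : Type) [Field K] [Algebra k K]
      (G : Subgroup (AlgebraicClosure ℚ ≃ₐ[ℚ] AlgebraicClosure ℚ)), G.index = 2 →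
      ∀ V : Submodule K (ρbar.baseChange K).V,
        (∀ σ ∈ G, ∀ x ∈ V, (ρbar.baseChange K).ρ σ x ∈ V) → V = ⊥ ∨ V = ⊤)
    (K : Type) [Field K] [Algebra k K] (G : Subgroup GQ) (hG : G.index = 1 ∨ G.index = 2)
    (V : Submodule K (Fin 2 → K))
    (hV : ∀ σ ∈ G, ∀ x ∈ V, ((residualMat ρbar b₀ σ).map (algebraMap k K)).mulVec x ∈ V) :
    V = ⊥ ∨ V = ⊤ := by
  rcases hG with hG | hG
  · rw [Subgroup.index_eq_one] at hG
    subst hG
    have hall : ∀ M : Matrix (Fin 2) (Fin 2) k, ∀ x ∈ V,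
        (M.map (algebraMap k K)).mulVec x ∈ V := by
      intro M
      have hM : M ∈ Submodule.span k (Set.range fun σ => LinearMap.toMatrix b₀ b₀ (ρbar.ρ σ)) :=
        span_range_eq_top_of_isAbsolutelyIrreducible ρbar habs b₀ ▸ Submodule.mem_top
      induction hM using Submodule.span_induction with
      | mem x hx =>
        obtain ⟨σ, rfl⟩ := hx
        exact hV σ (Subgroup.mem_top σ)
      | zero => intro x _; simp [Matrix.map_zero _ (map_zero (algebraMap k K))]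
      | add X Y _ _ hX hY =>
        intro x hx
        rw [Matrix.map_add _ (map_add (algebraMap k K)), Matrix.add_mulVec]
        exact V.add_mem (hX x hx) (hY x hx)
      | smul t X _ hX =>
        intro x hx
        rw [Matrix.map_smul' _ t X (map_mul (algebraMap k K)), Matrix.smul_mulVec]
        exact V.smul_mem _ (hX x hx)
    refine or_iff_not_imp_left.mpr fun hne => ?_
    obtain ⟨v, hv, hv0⟩ := Submodule.exists_mem_ne_zero_of_ne_bot hne
    obtain ⟨j, hj⟩ : ∃ j, v j ≠ 0 := Function.ne_iff.mp hv0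
    refine eq_top_iff.mpr fun w _ => ?_
    have hsum : w = ∑ i, (w i / v j) • ((Matrix.single i j (1 : k)).map (algebraMap k K)).mulVec v := by
      funext l
      fin_cases l <;> fin_cases j <;> simp at hj <;>
        simp [Matrix.single, hj]
    rw [hsum]
    exact Submodule.sum_mem _ fun i _ => V.smul_mem _ (hall _ v hv)
  · let bK : Module.Basis (Fin 2) K (TensorProduct k K ρbar.V) := Algebra.TensorProduct.basis K b₀
    have hbK : ∀ σ, LinearMap.toMatrix bK bK ((ρbar.baseChange K).ρ σ) =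
        (residualMat ρbar b₀ σ).map (algebraMap k K) := fun σ =>
      LinearMap.toMatrix_baseChange K (ρbar.ρ σ) b₀ b₀
    have hW' := hTW K G hG (V.comap bK.equivFun.toLinearMap) (fun σ hσ x hx => by
      have hx' : (⇑(bK.repr x) : Fin 2 → K) ∈ V := by simpa [Submodule.mem_comap] using hx
      have := hV σ hσ _ hx'
      rw [← hbK σ, LinearMap.toMatrix_mulVec_repr] at this
      simpa [Submodule.mem_comap] using this)
    rcases hW' with hW' | hW'
    · left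
      have := congrArg (Submodule.map bK.equivFun.toLinearMap) hW'
      rwa [Submodule.map_comap_eq_of_surjective bK.equivFun.surjective, Submodule.map_bot] at this
    · right
      have := congrArg (Submodule.map bK.equivFun.toLinearMap) hW'
      rwa [Submodule.map_comap_eq_of_surjective bK.equivFun.surjective, Submodule.map_top,
        LinearEquiv.range] at this

/-- Roots of a non-degenerate characteristic polynomial are distinct. -/
theorem ne_of_trace_sq_ne {σ : GQ}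
    (h : (residualMat ρbar b₀ σ).trace ^ 2 ≠ 4 * (residualMat ρbar b₀ σ).det) {α β : k}
    (hαβ : LinearMap.charpoly (ρbar.ρ σ) = (X - C α) * (X - C β)) : α ≠ β := by
  rintro rfl
  rw [← LinearMap.charpoly_toMatrix (ρbar.ρ σ) b₀, ← residualMat_apply,
    Matrix.charpoly_fin_two] at hαβ
  generalize residualMat ρbar b₀ σ = M at h hαβ
  have e0 := congrArg (Polynomial.eval 0) hαβ
  have e1 := congrArg (Polynomial.eval 1) hαβ
  simp at e0 e1
  apply h
  have ht : M.trace = 2 * α := by linear_combination e0 - e1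
  rw [ht, e0]
  ring

end Residual

variable {𝒪 : Type} [CommRing 𝒪] [IsDomain 𝒪] [IsDiscreteValuationRing 𝒪]
  [IsAdicComplete (maximalIdeal 𝒪) 𝒪] [Finite (ResidueField 𝒪)]

/-- **Taylor–Wiles primes with a presentation in the same number of variables**, for a family of
conditions containing the determinant, the ramification and a condition of dimension four at `p`. -/
theorem exists_twPrimes_surjective (p : ℕ) [Fact p.Prime] (hp2 : p ≠ 2)
    (hp𝒪 : (p : 𝒪) ∈ maximalIdeal 𝒪) (ρbar : ResidualGaloisRep (ResidueField 𝒪))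
    (habs : ρbar.IsAbsolutelyIrreducible)
    (hdet : (GaloisRepAdic.ofResidualGaloisRep ρbar).DetIsCyclotomic p)
    (hsplit : ∀ σ : AlgebraicClosure ℚ ≃ₐ[ℚ] AlgebraicClosure ℚ,
      ∃ α β : ResidueField 𝒪, LinearMap.charpoly (ρbar.ρ σ) = (X - C α) * (X - C β))
    (hTW : ∀ (K : Type) [Field K] [Algebra (ResidueField 𝒪) K]
      (G : Subgroup (AlgebraicClosure ℚ ≃ₐ[ℚ] AlgebraicClosure ℚ)), G.index = 2 →
      ∀ V : Submodule K (ρbar.baseChange K).V,
        (∀ σ ∈ G, ∀ x ∈ V, (ρbar.baseChange K).ρ σ x ∈ V) → V = ⊥ ∨ V = ⊤)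
    (S Smin : Finset ℕ) (hSmin : Smin ⊆ S) (hS : ∀ q ∈ S, q.Prime)
    (hmin : ∀ q : ℕ, q.Prime → q ≠ p → (q ∈ Smin ↔ ¬ ρbar.IsUnramifiedAt q))
    (𝒟Q : Finset ℕ → ∀ ⦃A : Type⦄ [CommRing A] [IsLocalRing A] [Algebra 𝒪 A],
      GaloisRepAdic A → Prop)
    (hbc : ∀ (S' : Finset ℕ) {A B : Type} [CommRing A] [IsLocalRing A] [Algebra 𝒪 A]
      [CommRing B] [IsLocalRing B] [Algebra 𝒪 B] (φ : A →+* B) (hφ : IsLocalHom φ),
      Function.Surjective φ → ∀ ρ : GaloisRepAdic A, 𝒟Q S' ρ →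
        𝒟Q S' (ρ.baseChangeAlong φ hφ))
    (hbase : ∀ (S' : Finset ℕ) {A : Type} [CommRing A] [IsLocalRing A] [Algebra 𝒪 A]
      (ρ : GaloisRepAdic A), 𝒟Q S' ρ → ρ.DetIsCyclotomic p ∧
        (∀ q : ℕ, q.Prime → q ∉ S' → ρ.IsUnramifiedAt q) ∧
        ∀ q ∈ Smin, q.Prime → q ≠ p → ρ.IsUnipotentOnInertiaAt q)
    (hatP : ∀ (b₀ : Module.Basis (Fin 2) (ResidueField 𝒪) ρbar.V) (S₀ : Finset ℕ)
      (ρ₀ : GaloisRepAdic (ResidueField 𝒪)) (b : Module.Basis (Fin 2) (ResidueField 𝒪) ρ₀.V),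
      matrixRep ρ₀ b = residualMat ρbar b₀ → 𝒟Q S₀ ρ₀ →
      ∃ atP : CondAtP (residualMat ρbar b₀) p, ∀ (S' : Finset ℕ)
        (ρ' : GaloisRepAdic (DualNumber (ResidueField 𝒪)))
        (b' : Module.Basis (Fin 2) (DualNumber (ResidueField 𝒪)) ρ'.V), 𝒟Q S' ρ' →
        (∀ σ, (matrixRep ρ' b' σ).map TrivSqZeroExt.fst = residualMat ρbar b₀ σ) →
        (fun g : atP.place.decompositionSubgroup ℚ =>
          cocOf (residualMat ρbar b₀) (matrixRep ρ' b') g) ∈ atP.cond) :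
    ∃ r : ℕ, ∀ n : ℕ, ∃ qv : Fin r → ℕ, Function.Injective qv ∧
      (∀ i, (qv i).Prime ∧ qv i ∉ S ∧ p ^ (n + 1) ∣ qv i - 1) ∧
      (∀ i, ∀ P : ValuationSubring (AlgebraicClosure ℚ), P.LiesOverPrime (qv i) →
        ∀ φ : AlgebraicClosure ℚ ≃ₐ[ℚ] AlgebraicClosure ℚ, P.IsFrobeniusAt φ (qv i) →
          ∃ α β : ResidueField 𝒪, α ≠ β ∧
            LinearMap.charpoly (ρbar.ρ φ) = (X - C α) * (X - C β)) ∧
      ∀ DQ : GaloisRep.DeformationRingData 𝒪 ρbar (𝒟Q (Smin ∪ Finset.univ.image qv)),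
        ∃ γ : MvPowerSeries (Fin r) 𝒪 →ₐ[𝒪] DQ.R, Function.Surjective γ := by
  have hp : p.Prime := Fact.out
  have hp3 : 3 ≤ p := by have := hp.two_le; omega
  by_cases hex : ∃ S₀, Nonempty (GaloisRep.DeformationRingData 𝒪 ρbar (𝒟Q S₀))
  swap
  · exact ⟨0, fun n => ⟨Fin.elim0, fun i => i.elim0, fun i => i.elim0, fun i => i.elim0,
      fun DQ => absurd ⟨_, ⟨DQ⟩⟩ hex⟩⟩
  obtain ⟨S₀, ⟨DQ₀⟩⟩ := hex
  have hpk : (p : ResidueField 𝒪) = 0 := by
    rw [← map_natCast (residue 𝒪), residue_eq_zero_iff]; exact hp𝒪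
  have : CharP (ResidueField 𝒪) p := (CharP.charP_iff_prime_eq_zero hp).mpr hpk
  let : Algebra (ZMod p) (ResidueField 𝒪) := ZMod.algebra _ p
  have h2 : (2 : ResidueField 𝒪) ≠ 0 := Ring.two_ne_zero (by rw [ringChar.eq _ p]; exact hp2)
  let b₀ := Module.finBasisOfFinrankEq (ResidueField 𝒪) ρbar.V ρbar.finrank_eq
  set ρm := residualMat ρbar b₀ with hρm
  have hfin : GaloisFactorsThroughFiniteLevel (ρm : GQ →* _) := finite_level_residualMat ρbar b₀
  have hdetm : ∀ σ, (ρm σ).det = chiP p _ σ := fun σ => det_matrixRep_eq_chi hdet hpk b₀ σ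
  -- the residual representation as a pushforward of a deformation ring
  obtain ⟨N, hc, hequiv, hNπ⟩ := exists_matrixForm DQ₀ b₀
  set π := toResidue DQ₀.instIsLocalHom DQ₀.residue_surjective with hπ
  have hπs : Function.Surjective π := fun z => by
    obtain ⟨o, rfl⟩ := IsLocalRing.residue_surjective z
    exact ⟨algebraMap 𝒪 DQ₀.R o, AlgHom.commutes π o⟩
  have hπl : IsLocalHom (π : DQ₀.R →+* ResidueField 𝒪) := isLocalHom_of_surjective' _ hπs
  have h𝒟₀ := hbc S₀ (π : DQ₀.R →+* ResidueField 𝒪) hπl hπs _ DQ₀.isOfType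
  obtain ⟨b, hb⟩ := exists_basis_of_isEquiv
    (baseChangeAlong_isEquiv_of_isEquiv_toAdic hc hequiv _ hπl)
  have hb' : matrixRep (DQ₀.ρ.baseChangeAlong (π : DQ₀.R →+* ResidueField 𝒪) hπl) b = ρm :=
    hb.trans (MonoidHom.ext hNπ)
  obtain ⟨atP, hatP⟩ := hatP b₀ S₀ _ b hb' h𝒟₀
  -- the primes where the residual representation ramifies
  have hunip : ∀ q ∈ Smin.erase p, ∀ A : ValuationSubring (AlgebraicClosure ℚ),
      A.LiesOverPrime q → ∀ σ ∈ A.inertiaSubgroupIn ℚ, (ρm σ - 1) * (ρm σ - 1) = 0 := by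
    intro q hq A hA σ hσ
    obtain ⟨hqp, hqS⟩ := Finset.mem_erase.mp hq
    rw [← hb']
    exact sq_matrixRep_sub_one_of_unipotent
      ((hbase S₀ _ h𝒟₀).2.2 q hqS (hS q (hSmin hqS)) hqp) b A hA σ hσ
  have hram : ∀ q ∈ Smin.erase p, ∃ A : ValuationSubring (AlgebraicClosure ℚ),
      A.LiesOverPrime q ∧ ∃ σ ∈ A.inertiaSubgroupIn ℚ, ρm σ ≠ 1 := by
    intro q hq
    obtain ⟨hqp, hqS⟩ := Finset.mem_erase.mp hq
    have := (hmin q (hS q (hSmin hqS)) hqp).mp hqS
    rw [ResidualGaloisRep.IsUnramifiedAt] at this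
    push Not at this
    obtain ⟨A, hA, σ, hσ, hne⟩ := this
    exact ⟨A, hA, σ, hσ, fun e => hne ((residualMat_eq_one_iff ρbar b₀ σ).mp e)⟩
  have hunr : ∀ q : ℕ, q.Prime → q ∉ Smin.erase p → q ≠ p →
      ∀ A : ValuationSubring (AlgebraicClosure ℚ), A.LiesOverPrime q →
        ∀ σ ∈ A.inertiaSubgroupIn ℚ, ρm σ = 1 := fun q hq hqS hqp A hA σ hσ => by
    have : ρbar.IsUnramifiedAt q := by
      by_contra h
      exact hqS (Finset.mem_erase.mpr ⟨hqp, (hmin q hq hqp).mpr h⟩)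
    exact (residualMat_eq_one_iff ρbar b₀ σ).mpr (this A hA σ hσ)
  have habs' : Engine.TW.IndexTwoIrreducible ρm :=
    fun K _ _ G hG V hV => indexTwoIrreducible_residualMat ρbar b₀ habs hTW K G hG V hV
  have hvan : Engine.TW.H1Vanishing p ρm := fun y hy hker =>
    mem_B1_of_kills_rhoKer isCyclotomicModP_chi hdetm hfin habs' hp2 hy hker
  let C : LocalChoices (∅ : Finset ℕ) :=
    ⟨fun x => absurd x.2 (Finset.notMem_empty _), fun x => absurd x.2 (Finset.notMem_empty _)⟩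
  obtain ⟨r, -, hr⟩ := exists_taylorWiles_system_of_h1 p hp2 (CFT.Brauer.reciprocity p)
    (GalCoh.greenbergWilesLe p) ρm hfin habs' (chiP p _) isCyclotomicModP_chi hdetm hvan atP
    (Smin.erase p) ∅ ⟨Finset.notMem_erase p Smin, Finset.notMem_empty p⟩ (Finset.disjoint_empty_right _)
    (fun q hq => by
      rw [Finset.union_empty] at hq
      exact hS q (hSmin (Finset.mem_of_mem_erase hq))) hunip hram hunr C
    (fun x => absurd x.2 (Finset.notMem_empty _))
  refine ⟨r, fun n => ?_⟩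
  obtain ⟨Q, hQc, hQ, hW⟩ := hr (n + S.sup id)
  refine ⟨fun i => Q.orderEmbOfFin hQc i, (Q.orderEmbOfFin hQc).injective, fun i => ?_,
    fun i P hP φ hφ => ?_, ?_⟩
  · obtain ⟨hq, -, -, hdvd, -⟩ := hQ _ (Q.orderEmbOfFin_mem hQc i)
    refine ⟨hq, fun hqS => ?_, (pow_dvd_pow p (by omega)).trans hdvd⟩
    have h1 : (Q.orderEmbOfFin hQc i : ℕ) ≤ S.sup id := Finset.le_sup (f := id) hqS
    have h3 := Nat.le_of_dvd (by have := hq.two_le; omega) hdvd
    have h4 := Nat.lt_pow_self (n := n + S.sup id + 1) hp.one_lt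
    omega
  · obtain ⟨α, β, hαβ⟩ := hsplit φ
    obtain ⟨-, -, -, -, hne⟩ := hQ _ (Q.orderEmbOfFin_mem hQc i)
    exact ⟨α, β, ne_of_trace_sq_ne ρbar b₀ (hne P hP φ hφ) hαβ, hαβ⟩
  intro DQ
  have himg : Finset.univ.image (fun i => (Q.orderEmbOfFin hQc i : ℕ)) = Q :=
    Finset.image_orderEmbOfFin_univ Q hQc
  obtain ⟨hZ, hZle⟩ := finrank_selCocycles_le C hW
  have hsig : ∀ q, q ∉ Smin.erase p ∪ ∅ ∪ Q ∪ {p} →
      q ∉ Smin ∪ Q ∧ q ≠ p ∧ q ∉ Smin.erase p := by
    intro q hq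
    simp only [Finset.union_empty, Finset.mem_union, Finset.mem_erase, Finset.mem_singleton,
      not_or] at hq ⊢
    tauto
  refine exists_surjective_of_cocycle_bound b₀ DQ (fun φ hφ hs => hbc _ _ hφ hs _ DQ.isOfType)
    (selCocycles ρm (Smin.erase p) (Smin.erase p ∪ ∅ ∪ Q ∪ {p}) atP) hZle
    (coboundary_mem_selCocycles h2 hfin (fun q hq hqs A hA σ hσ =>
      hunr q hq (hsig q hqs).2.2 (hsig q hqs).2.1 A hA σ hσ) hunip) fun ρ' b' h' hfst => ?_
  obtain ⟨hd', hu', hun'⟩ := hbase _ ρ' h'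
  rw [← hρm] at hfst ⊢
  refine ⟨⟨fun g h => ?_, trace_cocOf_eq_zero hdetm b' hd' hfst, ?_⟩,
    fun q hq hqs A hA σ hσ => ?_, fun q hq A hA σ hσ => ?_, hatP _ ρ' b' h' hfst⟩
  · rw [Deform.cocOf_mul hfst, Deform.adRep_apply, add_comm]
  · exact (exists_dual_level ρ' b').imp fun F hF =>
      ⟨hF.1, fun σ hσ => cocOf_eq_zero_of_eq_one (hF.2 σ hσ)⟩
  · refine cocOf_eq_zero_of_eq_one (matrixRep_eq_one_of_unramified (hu' q hq ?_) b' A hA σ hσ)
    rw [himg]
    exact (hsig q hqs).1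
  · obtain ⟨hqp, hqS⟩ := Finset.mem_erase.mp hq
    have hsq := sq_matrixRep_sub_one_of_unipotent (hun' q hqS (hS q (hSmin hqS)) hqp) b' A hA σ hσ
    have hm := congrArg (fun Z => Z.map TrivSqZeroExt.snd) hsq
    have e1 := map_sub_smul_fst (matrixRep ρ' b' σ) (1 : ResidueField 𝒪)
    have e2 := map_sub_smul_snd (matrixRep ρ' b' σ) (1 : ResidueField 𝒪)
    rw [TrivSqZeroExt.inl_one, one_smul, one_smul, hfst] at e1
    rw [TrivSqZeroExt.inl_one, one_smul] at e2
    simp only [Deform.snd_map_mul, e1, e2, Deform.snd_eq_cocOf_mul (ρ := ρm),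
      Matrix.map_zero _ TrivSqZeroExt.snd_zero] at hm
    rw [add_comm]
    exact hm

end Fermat.Agent.RowS56
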