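import Fermat.Agent.RowS56.Deform.Cond
import Fermat.Agent.LocalRingP.CondAtP
import Fermat.Agent.DefRing.Tangent

/-!
# The strict and the flat condition at an odd prime on first order lifts
-/

noncomputable section

namespace Fermat.Agent.RowS56

open Fermat.Agent.DefRing Fermat.Agent.Engine Matrix
open Fermat.Agent.Deform (cocOf)

local notation "Ω" => AlgebraicClosure ℚ

variable {k : Type} [Field k] [Finite k] {p : ℕ} [Fact p.Prime] [CharP k p]

omit [Finite k] [CharP k p] in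
lemma chiP_dual (σ : GQ) :
    chiP p (DualNumber k) σ = TrivSqZeroExt.inl (chiP p k σ) :=
  (map_chi (TrivSqZeroExt.inlHom k k) σ).symm

omit [Finite k] [Fact p.Prime] in
lemma natCast_dual_eq_zero : (p : DualNumber k) = 0 := by
  rw [← map_natCast (TrivSqZeroExt.inlHom k k), CharP.cast_eq_zero, map_zero]

omit [Finite k] in
/-- The cocycle of a lift of cyclotomic determinant has trace zero. -/
lemma trace_cocOf_eq_zero {ρ : MRep k} (hdet : ∀ σ, (ρ σ).det = chiP p k σ)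
    {ρ' : GaloisRepAdic (DualNumber k)} (b : Module.Basis (Fin 2) (DualNumber k) ρ'.V)
    (h' : ρ'.DetIsCyclotomic p) (hfst : ∀ σ, (matrixRep ρ' b σ).map TrivSqZeroExt.fst = ρ σ)
    (σ : GQ) : (cocOf ρ (matrixRep ρ' b) σ).trace = 0 := by
  refine (Deform.det_eq_iff_trace_cocOf hfst σ).mp ?_
  rw [det_matrixRep_eq_chi h' natCast_dual_eq_zero b σ, hdet, chiP_dual]

omit [CharP k p] [Fact p.Prime] in
/-- A lift over the dual numbers of a finite field has finite level. -/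
lemma exists_dual_level (ρ' : GaloisRepAdic (DualNumber k))
    (b : Module.Basis (Fin 2) (DualNumber k) ρ'.V) :
    ∃ F : IntermediateField ℚ Ω, FiniteDimensional ℚ F ∧
      ∀ σ : GQ, (∀ x ∈ F, σ x = x) → matrixRep ρ' b σ = 1 := by
  have : Finite (DualNumber k) := inferInstanceAs (Finite (k × k))
  exact (isCont_matrixRep ρ' b).finite_level

omit [Finite k] [CharP k p] [Fact p.Prime] in
lemma cocOf_eq_zero_of_eq_one {ρ : MRep k} {N : GQ →* Matrix (Fin 2) (Fin 2) (DualNumber k)}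
    {σ : GQ} (h : N σ = 1) : cocOf ρ N σ = 0 := by
  rw [cocOf, h, show (1 : Matrix (Fin 2) (Fin 2) (DualNumber k)).map TrivSqZeroExt.snd = 0 by
    rw [← Deform.dualMat_one, Deform.snd_dualMat], zero_mul]

omit [Finite k] in
lemma map_sub_smul_fst (X : Matrix (Fin 2) (Fin 2) (DualNumber k)) (s : k) :
    (X - (TrivSqZeroExt.inl s : DualNumber k) • (1 : Matrix (Fin 2) (Fin 2) (DualNumber k))).map TrivSqZeroExt.fst =
      X.map TrivSqZeroExt.fst - s • 1 := by
  ext i j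
  fin_cases i <;> fin_cases j <;> simp

omit [Finite k] in
lemma map_sub_smul_snd (X : Matrix (Fin 2) (Fin 2) (DualNumber k)) (s : k) :
    (X - (TrivSqZeroExt.inl s : DualNumber k) • (1 : Matrix (Fin 2) (Fin 2) (DualNumber k))).map TrivSqZeroExt.snd =
      X.map TrivSqZeroExt.snd := by
  ext i j
  fin_cases i <;> fin_cases j <;> simp

/-- **The strict condition at an odd prime.** -/
theorem exists_strict_atP (hp3 : 3 ≤ p) {ρ : MRep k}
    (hfin : GaloisFactorsThroughFiniteLevel (ρ : GQ →* _))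
    (hdet : ∀ σ, (ρ σ).det = chiP p k σ) (A : ValuationSubring Ω) (hA : A.LiesOverPrime p)
    {ρ₀ : GaloisRepAdic k} (b₀ : Module.Basis (Fin 2) k ρ₀.V) (h₀ : matrixRep ρ₀ b₀ = ρ)
    (hd₀ : ρ₀.DetIsCyclotomic p) (hs₀ : ρ₀.IsStrictOrdinaryAt p) :
    ∃ atP : CondAtP ρ p, ∀ (ρ' : GaloisRepAdic (DualNumber k))
      (b : Module.Basis (Fin 2) (DualNumber k) ρ'.V),
        ρ'.DetIsCyclotomic p → ρ'.IsStrictOrdinaryAt p →
        (∀ σ, (matrixRep ρ' b σ).map TrivSqZeroExt.fst = ρ σ) →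
        (fun g : atP.place.decompositionSubgroup ℚ => cocOf ρ (matrixRep ρ' b) g) ∈ atP.cond := by
  have hpk : (p : k) = 0 := CharP.cast_eq_zero k p
  have h2 : (2 : k) ≠ 0 := Ring.two_ne_zero (by rw [ringChar.eq k p]; omega)
  obtain ⟨γ, -, hγI, hγ⟩ := exists_quotient_char hd₀ hs₀ hpk b₀ A hA
  rw [h₀] at hγ
  have hL := LocalRingP.finrank_condSpace_le_four (p := p) (A := A) hp3 ρ hfin (chiP p k)
    isCyclotomicModP_chi hdet hA (fun σ hσ τ hτ => by
      have := hγ σ (MultRed.inertia_mem_decomposition hσ) τ (MultRed.inertia_mem_decomposition hτ)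
      rwa [hγI σ hσ, hγI τ hτ, one_mul, one_smul] at this)
    Set.univ (fun _ _ => Set.mem_univ _) (fun g => γ g) (fun g => γ g * chiP p k g)
    (fun g hg => ⟨hγI g hg, by rw [hγI g hg, one_mul]⟩) (Or.inl rfl)
  refine ⟨⟨A, hA, LocalRingP.condSpace (ρ.comp (A.decompositionSubgroup ℚ).subtype) Set.univ
    (fun g => γ g) (fun g => γ g * chiP p k g), fun c hc => ⟨hc.1, hc.2.1⟩, fun X _ =>
      LocalRingP.coboundary_mem_condSpace (hfin.imp fun L h => ⟨h.1, fun g hg => h.2 g hg⟩)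
        (fun σ _ τ _ => hγ σ σ.2 τ τ.2) X, hL⟩, fun ρ' b hd hs hfst => ?_⟩
  set N := matrixRep ρ' b with hN
  refine ⟨fun g h => ?_, fun g => trace_cocOf_eq_zero hdet b hd hfst g, ?_, fun σ _ τ _ => ?_⟩
  · beta_reduce
    rw [Subgroup.coe_mul, Deform.cocOf_mul hfst, Deform.adRep_apply, add_comm]
    rfl
  · exact (exists_dual_level ρ' b).imp fun F hF =>
      ⟨hF.1, fun g hg => cocOf_eq_zero_of_eq_one (hF.2 g hg)⟩
  obtain ⟨γ', hγ'sq, hγ'I, hγ'⟩ := exists_quotient_char hd hs natCast_dual_eq_zero b A hA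
  rw [← hN] at hγ'
  have hinl : ∀ u ∈ A.decompositionSubgroup ℚ, γ' u = TrivSqZeroExt.inl (γ' u).fst :=
    fun u hu => eq_inl_of_mul_self_eq_one h2 (hγ'sq u hu)
  have heq : ∀ u ∈ A.decompositionSubgroup ℚ, ∀ v ∈ A.decompositionSubgroup ℚ,
      (N u - (TrivSqZeroExt.inl ((γ' u).fst * chiP p k u) : DualNumber k) • 1) *
        (N v - (TrivSqZeroExt.inl (γ' v).fst : DualNumber k) • 1) = 0 := by
    intro u hu v hv
    have := hγ' u hu v hv
    rwa [hinl u hu, hinl v hv, chiP_dual, ← TrivSqZeroExt.inl_mul] at this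
  have hres : ∀ u ∈ A.decompositionSubgroup ℚ, ∀ v ∈ A.decompositionSubgroup ℚ,
      (ρ u - ((γ' u).fst * chiP p k u) • 1) * (ρ v - (γ' v).fst • 1) = 0 := by
    intro u hu v hv
    have := congrArg (fun Z => Z.map TrivSqZeroExt.fst) (heq u hu v hv)
    simpa only [Deform.fst_map_mul, map_sub_smul_fst, hfst,
      Matrix.map_zero _ TrivSqZeroExt.fst_zero] using this
  have huniq : ∀ u ∈ A.decompositionSubgroup ℚ, (γ' u).fst = γ u := fun u hu =>
    quotient_char_unique hp3 hdet hA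
      (fun v hv => by rw [hγ'I v hv, TrivSqZeroExt.fst_one]) hγI hres hγ hu
  have e := congrArg (fun Z => Z.map TrivSqZeroExt.snd) (heq σ σ.2 τ τ.2)
  simp only [Deform.snd_map_mul, map_sub_smul_fst, map_sub_smul_snd, hfst,
    Matrix.map_zero _ TrivSqZeroExt.snd_zero, Deform.snd_eq_cocOf_mul (ρ := ρ), huniq _ σ.2,
    huniq _ τ.2] at e
  show _ * ρ σ * (ρ τ - γ τ • 1) + (ρ σ - (γ σ * chiP p k σ) • 1) * (_ * ρ τ) = 0
  rw [add_comm]
  exact e

/-- **The flat condition at an odd prime.** -/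
theorem exists_flat_atP (hp3 : 3 ≤ p) {ρ : MRep k}
    (hfin : GaloisFactorsThroughFiniteLevel (ρ : GQ →* _))
    (hdet : ∀ σ, (ρ σ).det = chiP p k σ) (A : ValuationSubring Ω) (hA : A.LiesOverPrime p)
    {ρ₀ : GaloisRepAdic k} (b₀ : Module.Basis (Fin 2) k ρ₀.V) (h₀ : matrixRep ρ₀ b₀ = ρ)
    (hf₀ : ρ₀.IsFlatAt p) :
    ∃ atP : CondAtP ρ p, ∀ (ρ' : GaloisRepAdic (DualNumber k))
      (b : Module.Basis (Fin 2) (DualNumber k) ρ'.V),
        ρ'.DetIsCyclotomic p → ρ'.IsFlatAt p →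
        (∀ σ, (matrixRep ρ' b σ).map TrivSqZeroExt.fst = ρ σ) →
        (fun g : atP.place.decompositionSubgroup ℚ => cocOf ρ (matrixRep ρ' b) g) ∈ atP.cond := by
  have : Finite (DualNumber k) := inferInstanceAs (Finite (k × k))
  obtain ⟨M, hM⟩ := exists_model_matrixRep hf₀ b₀
  rw [h₀] at hM
  obtain ⟨L, hL1, hL2, hL3, hL4⟩ := exists_flat_condition ⟨Fact.out, hA⟩ hp3 hfin hdet hM
  exact ⟨⟨A, hA, L, hL1, hL2, hL3⟩, fun ρ' b hd hf hfst => hL4 (matrixRep ρ' b) hfst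
    (trace_cocOf_eq_zero hdet b hd hfst) (exists_dual_level ρ' b) (exists_model_matrixRep hf b)⟩

end Fermat.Agent.RowS56
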