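import Fermat.Agent.RowS56.CondFlat
import Fermat.Agent.RowS56.Model.OfHopf
import Fermat.Agent.Engine.TW.Choice
import Fermat.Agent.DefRing.MatrixRep
import Fermat.Prelude.Def_GaloisRep_StrictOrdinary
import Fermat.Prelude.Def_GaloisRep_Flat

/-!
# The local conditions in matrices
-/

noncomputable section

namespace Fermat.Agent.RowS56

open Fermat.Agent.DefRing Fermat.Agent.GalCoh.Descent ExtCitation Matrix
open Fermat.Agent.Engine (IsCyclotomicModP)

local notation "Ω" => AlgebraicClosure ℚ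

variable {p : ℕ} [Fact p.Prime]

variable (p) in
/-- The mod `p` cyclotomic character with values in a ring. -/
def chiP (B : Type) [CommRing B] (σ : GQ) : B := ((cycloChar p σ : ZMod p).val : B)

/-- The cyclotomic character describes the action on `p`-th roots of unity. -/
lemma apply_eq_pow_cycloChar (σ : GQ) {μ : Ω} (hμ : μ ^ p ^ 1 = 1) :
    σ μ = μ ^ (cycloChar p σ : ZMod p).val := by
  rw [pow_one] at hμ
  obtain ⟨x, rfl⟩ := exists_mu_eq hμ
  rw [apply_mu, ← mu_natCast_mul, ZMod.natCast_zmod_val]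

theorem isCyclotomicModP_chi {k : Type} [Field k] [CharP k p] :
    IsCyclotomicModP p (chiP p k) := fun σ a ha => by
  have hpow : mu p (1 : ZMod p) ^ p = 1 := by rw [mu, ← pow_mul, mul_comm, pow_mul,
    (zetaP_spec p).pow_eq_one, one_pow]
  have h : mu p ((cycloChar p σ : ZMod p) * 1) = mu p ((a : ZMod p) * 1) := by
    rw [← apply_mu, ha _ hpow, ← mu_natCast_mul]
  have h' : (cycloChar p σ : ZMod p) = (a : ZMod p) := by simpa using mu_injective h
  rw [chiP, h', ZMod.val_natCast]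
  exact (CharP.cast_eq_mod k p a).symm

lemma map_chi {B C : Type} [CommRing B] [CommRing C] (f : B →+* C) (σ : GQ) :
    f (chiP p B σ) = chiP p C σ := map_natCast f _

lemma isUnit_chi {B : Type} [CommRing B] (hpB : (p : B) = 0) (σ : GQ) : IsUnit (chiP p B σ) := by
  have h : IsCoprime (((cycloChar p σ : ZMod p).val : ℕ) : ℤ) (p : ℤ) :=
    (ZMod.val_coe_unit_coprime (cycloChar p σ)).isCoprime
  have h' := h.map (Int.castRingHom B)
  rw [map_natCast, map_natCast, hpB] at h'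
  exact isCoprime_zero_right.mp h'

variable {B : Type} [CommRing B] [IsLocalRing B] {ρ : GaloisRepAdic B}

theorem det_matrixRep_eq_chi (hdet : ρ.DetIsCyclotomic p) (hpB : (p : B) = 0)
    (b : Module.Basis (Fin 2) B ρ.V) (σ : GQ) : (matrixRep ρ b σ).det = chiP p B σ := by
  have h := hdet.2 1 σ _ fun μ hμ => apply_eq_pow_cycloChar σ hμ
  rw [pow_one, hpB, Ideal.span_singleton_eq_bot.mpr rfl, Ideal.mem_bot, sub_eq_zero] at h
  rw [matrixRep_apply, LinearMap.det_toMatrix]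
  exact h

theorem matrixRep_eq_one_of_unramified {q : ℕ} (h : ρ.IsUnramifiedAt q)
    (b : Module.Basis (Fin 2) B ρ.V) (P : ValuationSubring Ω) (hP : P.LiesOverPrime q) (σ : GQ)
    (hσ : σ ∈ P.inertiaSubgroupIn ℚ) : matrixRep ρ b σ = 1 := by
  rw [matrixRep_apply, h P hP σ hσ, LinearMap.toMatrix_one]

theorem sq_matrixRep_sub_one_of_unipotent {q : ℕ} (h : ρ.IsUnipotentOnInertiaAt q)
    (b : Module.Basis (Fin 2) B ρ.V) (P : ValuationSubring Ω) (hP : P.LiesOverPrime q) (σ : GQ)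
    (hσ : σ ∈ P.inertiaSubgroupIn ℚ) :
    (matrixRep ρ b σ - 1) * (matrixRep ρ b σ - 1) = 0 := by
  have hcp : (matrixRep ρ b σ).charpoly = (Polynomial.X - 1) ^ 2 := by
    rw [matrixRep_apply, LinearMap.charpoly_toMatrix, h P hP σ hσ]
  have hch := Matrix.aeval_self_charpoly (matrixRep ρ b σ)
  rw [hcp, map_pow, map_sub, Polynomial.aeval_X, map_one, pow_two] at hch
  exact hch

/-- The strict shape in matrices. -/
theorem exists_quotient_char (hdet : ρ.DetIsCyclotomic p) (h : ρ.IsStrictOrdinaryAt p)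
    (hpB : (p : B) = 0) (b : Module.Basis (Fin 2) B ρ.V) (P : ValuationSubring Ω)
    (hP : P.LiesOverPrime p) :
    ∃ γ : GQ → B, (∀ σ ∈ P.decompositionSubgroup ℚ, γ σ * γ σ = 1) ∧
      (∀ σ ∈ P.inertiaSubgroupIn ℚ, γ σ = 1) ∧
      ∀ σ ∈ P.decompositionSubgroup ℚ, ∀ τ ∈ P.decompositionSubgroup ℚ,
        (matrixRep ρ b σ - (γ σ * chiP p B σ) • 1) * (matrixRep ρ b τ - γ τ • 1) = 0 := by
  obtain ⟨L, ⟨c, hc⟩, -, hI, hstr⟩ := h.2 P hP
  set M := matrixRep ρ c with hM
  have hcol : ∀ v ∈ L, c.repr v 1 = 0 := fun v hv => by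
    obtain ⟨a, rfl⟩ := Submodule.mem_span_singleton.mp (hc ▸ hv)
    simp
  have hshape : ∀ σ ∈ P.decompositionSubgroup ℚ,
      M σ 0 0 = M σ 1 1 * chiP p B σ ∧ M σ 1 0 = 0 ∧ M σ 1 1 * M σ 1 1 = 1 := by
    intro σ hσ
    obtain ⟨x, z, h1, h2, h3⟩ := hstr σ hσ
    have e0 := h1 (c 0) (hc ▸ Submodule.mem_span_singleton_self _)
    have h00 : M σ 0 0 = x := by simp [hM, LinearMap.toMatrix_apply, e0]
    have h10 : M σ 1 0 = 0 := by simp [hM, LinearMap.toMatrix_apply, e0]
    have h11 : M σ 1 1 = z := by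
      have := hcol _ (h2 (c 1))
      simpa [hM, LinearMap.toMatrix_apply, sub_eq_zero] using this
    have hx : x = z * chiP p B σ := by
      have := h3 1 _ fun μ hμ => apply_eq_pow_cycloChar σ hμ
      rw [pow_one, hpB, Ideal.span_singleton_eq_bot.mpr rfl, Ideal.mem_bot, sub_eq_zero] at this
      rw [this, mul_comm]
      rfl
    refine ⟨by rw [h00, h11, hx], h10, (isUnit_chi hpB σ).mul_left_cancel ?_⟩
    have hd := det_matrixRep_eq_chi hdet hpB c σ
    rw [← hM, Matrix.det_fin_two, h00, h10, h11, hx, mul_zero, sub_zero] at hd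
    rw [h11, mul_one]
    linear_combination hd
  refine ⟨fun σ => M σ 1 1, fun σ hσ => (hshape σ hσ).2.2, fun σ hσ => ?_, fun σ hσ τ hτ => ?_⟩
  · have := hcol _ (hI σ hσ (c 1))
    simpa [hM, LinearMap.toMatrix_apply, sub_eq_zero] using this
  obtain ⟨g, hg⟩ := (isEquiv_iff_exists_GL c b).mp ⟨GaloisRepAdic.Equiv.refl ρ⟩
  have hb : ∀ (u : GQ) (s : B), matrixRep ρ b u - s • 1 =
      (g : Matrix (Fin 2) (Fin 2) B) * (M u - s • 1) * (↑g⁻¹ : Matrix (Fin 2) (Fin 2) B) := by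
    intro u s
    rw [mul_sub, sub_mul, hg u, mul_assoc, Units.mul_inv, mul_one, Matrix.mul_smul, mul_one,
      Matrix.smul_mul, Units.mul_inv]
  obtain ⟨s0, s1, -⟩ := hshape σ hσ
  obtain ⟨-, t1, -⟩ := hshape τ hτ
  have h0 : (M σ - (M σ 1 1 * chiP p B σ) • 1) * (M τ - M τ 1 1 • 1) = 0 := by
    rw [← s0]
    ext i j
    fin_cases i <;> fin_cases j <;> simp [Matrix.mul_apply, Fin.sum_univ_two, s1, t1]
  rw [hb, hb]
  simp only [mul_assoc, Units.inv_mul_cancel_left]
  simp only [← mul_assoc]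
  rw [mul_assoc (g : Matrix (Fin 2) (Fin 2) B), h0, mul_zero, zero_mul]

/-- Signs in the dual numbers are constant. -/
lemma eq_inl_of_mul_self_eq_one {k : Type} [Field k] (h2 : (2 : k) ≠ 0) {z : DualNumber k}
    (h : z * z = 1) : z = TrivSqZeroExt.inl z.fst := by
  have h1 := congrArg TrivSqZeroExt.fst h
  have h3 := congrArg TrivSqZeroExt.snd h
  rw [TrivSqZeroExt.fst_mul, TrivSqZeroExt.fst_one] at h1
  rw [DualNumber.snd_mul, TrivSqZeroExt.snd_one] at h3
  refine TrivSqZeroExt.ext (by simp) ?_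
  rw [TrivSqZeroExt.snd_inl]
  have hz : z.fst ≠ 0 := left_ne_zero_of_mul_eq_one h1
  have : (2 : k) * z.fst * z.snd = 0 := by linear_combination h3
  simpa [h2, hz] using this

/-- The quotient character of the residual strict shape is unique. -/
theorem quotient_char_unique {k : Type} [Field k] [CharP k p] (hp3 : 3 ≤ p) {ρ : MRep k}
    (hdet : ∀ σ, (ρ σ).det = chiP p k σ) {P : ValuationSubring Ω} (hP : P.LiesOverPrime p)
    {γ γ' : GQ → k} (hI : ∀ σ ∈ P.inertiaSubgroupIn ℚ, γ σ = 1)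
    (hI' : ∀ σ ∈ P.inertiaSubgroupIn ℚ, γ' σ = 1)
    (h : ∀ σ ∈ P.decompositionSubgroup ℚ, ∀ τ ∈ P.decompositionSubgroup ℚ,
      (ρ σ - (γ σ * chiP p k σ) • 1) * (ρ τ - γ τ • 1) = 0)
    (h' : ∀ σ ∈ P.decompositionSubgroup ℚ, ∀ τ ∈ P.decompositionSubgroup ℚ,
      (ρ σ - (γ' σ * chiP p k σ) • 1) * (ρ τ - γ' τ • 1) = 0)
    {σ : GQ} (hσ : σ ∈ P.decompositionSubgroup ℚ) : γ σ = γ' σ := by
  have hp : p.Prime := Fact.out
  have h2 : (2 : ZMod p) ≠ 0 := fun e => by
    have h2' := Nat.le_of_dvd two_pos ((ZMod.natCast_eq_zero_iff 2 p).mp e)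
    omega
  obtain ⟨τ, hτ, hτu⟩ := exists_inertia_cycloChar hP (Units.mk0 (2 : ZMod p) h2)
  have hχ : chiP p k τ ≠ 1 := by
    have : (2 : ℕ) < p := hp3
    rw [chiP, hτu, Units.val_mk0, show (2 : ZMod p) = ((2 : ℕ) : ZMod p) by norm_num,
      ZMod.val_natCast, Nat.mod_eq_of_lt this]
    intro e
    have : (1 : k) = 0 := by push_cast at e; linear_combination e
    exact one_ne_zero this
  have hne : ρ τ - 1 ≠ 0 := fun e => hχ (by rw [← hdet, sub_eq_zero.mp e, Matrix.det_one])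
  have hτD := MultRed.inertia_mem_decomposition hτ
  have e1 := h σ hσ τ hτD
  have e2 := h' σ hσ τ hτD
  rw [hI τ hτ, one_smul] at e1
  rw [hI' τ hτ, one_smul] at e2
  have e3 : ((γ' σ - γ σ) * chiP p k σ) • (ρ τ - 1) = 0 := by
    have e : (ρ σ - (γ σ * chiP p k σ) • 1) * (ρ τ - 1) -
        (ρ σ - (γ' σ * chiP p k σ) • 1) * (ρ τ - 1) =
          ((γ' σ - γ σ) * chiP p k σ) • (ρ τ - 1) := by
      rw [← sub_mul, sub_sub_sub_cancel_left, ← sub_smul, ← sub_mul (γ' σ), Matrix.smul_mul,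
        one_mul]
    rw [← e, e1, e2, sub_self]
  rcases smul_eq_zero.mp e3 with e | e
  · rcases mul_eq_zero.mp e with e | e
    · exact (sub_eq_zero.mp e).symm
    · exact absurd e (isUnit_chi (CharP.cast_eq_zero k p) σ).ne_zero
  · exact absurd e hne

omit [Fact p.Prime] in
/-- The model of a flat representation with finite coefficients, in matrices. -/
theorem exists_model_matrixRep [Finite B] (h : ρ.IsFlatAt p) (b : Module.Basis (Fin 2) B ρ.V) :
    ∃ M, IsModel p (matAct (matrixRep ρ b)) M := by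
  have : Finite (B ⧸ (⊥ : Ideal B)) := Finite.of_surjective _ Ideal.Quotient.mk_surjective
  refine exists_isModel_of_flat h ⊥ inferInstance _
    (b.equivFun.symm.trans (Submodule.quotEquivOfEqBot _ (Submodule.bot_smul _)).symm).toAddEquiv
    fun σ x => ?_
  show Submodule.Quotient.mk (b.equivFun.symm (matrixRep ρ b σ *ᵥ x)) =
    ρ.levelAction ⊥ σ (Submodule.Quotient.mk (b.equivFun.symm x))
  refine Eq.trans ?_ (rfl : Submodule.Quotient.mk (ρ.ρ σ (b.equivFun.symm x)) = _)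
  congr 1
  apply b.equivFun.injective
  rw [LinearEquiv.apply_symm_apply, matrixRep_apply]
  conv_lhs => rw [← b.equivFun.apply_symm_apply x]
  exact LinearMap.toMatrix_mulVec_repr b b _ _

end Fermat.Agent.RowS56
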